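import Fermat.Statements.S56
import Fermat.Agent.CFT.GW.Killing
import Fermat.Agent.CFT.GW.TangentBound
import Fermat.Agent.CFT.GW.FlatBound
import Fermat.Agent.CFT.Tangent.OrdinaryBound
import Fermat.Agent.CFT.Tangent.BaseChange
import Fermat.Agent.CFT.Tangent.Classes
import Fermat.Agent.CFT.Tangent.PowerSeries
import Fermat.Agent.CFT.TWPrimes.Residual

/-!
# The proof of S56, for use in the library
-/

set_option autoImplicit false
set_option linter.style.haveILetI false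
open Polynomial IsLocalRing
open ResidualGaloisRep

namespace Fermat.Agent.Results.S56

open Fermat.Agent.Deform Fermat.Agent.CFT.Tangent Module in
/-- The two cases at once: the primes, and the bound for a space of classes. -/
theorem exists_primes_bound
    {k : Type} [Field k] [Finite k] (p : ℕ) [Fact p.Prime] [CharP k p] (hp2 : p ≠ 2)
    (ρbar : ResidualGaloisRep k) (bb : Basis (Fin 2) k ρbar.V)
    (hr : Fermat.Agent.CFT.TWPrimes.TWHyp (matRes ρbar bb))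
    (hdet : (GaloisRepAdic.ofResidualGaloisRep ρbar).DetIsCyclotomic p)
    (S Smin : Finset ℕ) (hpSmin : p ∈ Smin) (hSp : ∀ v ∈ Smin, v.Prime)
    (hmin : ∀ q : ℕ, q.Prime → q ≠ p → (q ∈ Smin ↔ ¬ ρbar.IsUnramifiedAt q)) :
    ∃ m : ℕ, ∀ n : ℕ, ∃ qv : Fin m → ℕ, Function.Injective qv ∧
      (∀ i, (qv i).Prime ∧ qv i ∉ S ∧ p ^ (n + 1) ∣ qv i - 1) ∧
      (∀ i, ∀ P : ValuationSubring (AlgebraicClosure ℚ), P.LiesOverPrime (qv i) →
        ∀ φ : AlgebraicClosure ℚ ≃ₐ[ℚ] AlgebraicClosure ℚ, P.IsFrobeniusAt φ (qv i) →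
          ∃ α β : k, α ≠ β ∧ LinearMap.charpoly (ρbar.ρ φ) = (X - C α) * (X - C β)) ∧
      ∀ (V : Submodule k (Gal → M2 k)) [Module.Finite k V],
        (∀ b ∈ V, IsAdCocycle (matRes ρbar bb) b) → (∀ b ∈ V, IsFiniteLevel b) →
        (∀ b ∈ V, ∀ Y, b = cobdLin (matRes ρbar bb) Y → b = 0) →
        (∀ b ∈ V, b ≠ 0 → ∃ (ρ : GaloisRepAdic (DualNumber k))
          (B : Basis (Fin 2) (DualNumber k) ρ.V), ρ.DetIsCyclotomic p ∧
            (∀ q : ℕ, q.Prime → q ∉ Smin ∪ Finset.univ.image qv → ρ.IsUnramifiedAt q) ∧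
            (∀ q ∈ Smin, q.Prime → q ≠ p → ρ.IsUnipotentOnInertiaAt q) ∧
            ∀ σ, matOf ρ B σ = (1 + epsM (b σ)) * inlM (matRes ρbar bb σ)) →
        finrank k V ≤ finrank k (V ⊓ cobdOn (matRes ρbar bb)
            ((padicPlace p).decompositionSubgroup ℚ) : Submodule k (Gal → M2 k)) +
          finrank k (fixedOn (matRes ρbar bb) ((padicPlace p).decompositionSubgroup ℚ)) + 1 →
        finrank k V ≤ m := by
  classical
  set r := matRes ρbar bb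
  have hfin := Fermat.Agent.CFT.TWPrimes.finiteLevel_matRes ρbar bb
  have hcyc := fun σ a =>
    Fermat.Agent.CFT.TWPrimes.det_matRes_of_detIsCyclotomic ρbar bb p hdet σ a
  have hone : ∀ τ, r τ = 1 ↔ ρbar.ρ τ = 1 := fun τ => by
    show LinearMap.toMatrixAlgEquiv bb (ρbar.ρ τ) = 1 ↔ _
    exact map_eq_one_iff _ (LinearMap.toMatrixAlgEquiv bb).injective
  have hunr : ∀ (v : ℕ) [Fact v.Prime], v ∉ Smin →
      ∀ τ ∈ (padicPlace v).inertiaSubgroupIn ℚ, r τ = 1 := fun v hv hvS τ hτ =>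
    (hone τ).mpr (not_not.mp (mt (hmin v hv.out fun e => hvS (e ▸ hpSmin)).mpr hvS) _
      (Fermat.Agent.CFT.Local.padicPlace_liesOverPrime v) τ hτ)
  have hram : ∀ v ∈ Smin, v ≠ p → ∀ [Fact v.Prime],
      ∃ τ ∈ (padicPlace v).inertiaSubgroupIn ℚ, r τ ≠ 1 := by
    intro v hv hvp hvf
    have h := (hmin v hvf.out hvp).mp hv
    simp only [ResidualGaloisRep.IsUnramifiedAt, not_forall] at h
    obtain ⟨A, hA, τ, hτ, hne⟩ := h
    exact Fermat.Agent.CFT.GW.exists_inertia_ne_one r ⟨A, hA, τ, hτ, fun e => hne ((hone τ).mp e)⟩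
  obtain ⟨m, hm⟩ :=
    Fermat.Agent.CFT.GW.exists_killing_primes hp2 hr hfin hcyc Smin hpSmin hSp hunr
  refine ⟨m, fun n => ?_⟩
  obtain ⟨q, hinj, hq, hfrob, hkill⟩ := hm S n
  refine ⟨q, hinj, fun i => ⟨(hq i).1, (hq i).2.1, (hq i).2.2.2⟩, fun i P hP φ hφ => ?_, ?_⟩
  · obtain ⟨α, β, hne, hcp⟩ := ((hfrob i P hP).2 φ hφ).2.2
    exact ⟨α, β, hne, (LinearMap.charpoly_toMatrix (ρbar.ρ φ) bb).symm.trans hcp⟩
  intro V _ hcoc hlev hinjV hcls hbp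
  refine Fermat.Agent.CFT.GW.finrank_classes_le hp2 hr hfin hcyc Smin hpSmin hSp hunr hram q
    (fun i => ⟨(hq i).1, (hq i).2.2.1⟩) ?_ hkill V hcoc hlev hinjV (fun b hb hne => ?_) hbp
  · intro i hi φ hφ
    obtain ⟨h1, h2, -⟩ :=
      (hfrob i _ (Fermat.Agent.CFT.Local.padicPlace_liesOverPrime (q i))).2 φ hφ
    exact ⟨h1, h2⟩
  · obtain ⟨ρ, B, hd, hu, hv, hB⟩ := hcls b hb hne
    refine ⟨ρ, B, hd, fun v hvp hvS hvq => hu v hvp fun hmem => ?_, hv, hB⟩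
    rcases Finset.mem_union.mp hmem with h | h
    · exact hvS h
    · obtain ⟨i, -, rfl⟩ := Finset.mem_image.mp h
      exact hvq i rfl

open Fermat.Agent.CFT.Tangent in
theorem result
    {𝒪 : Type} [CommRing 𝒪] [IsDomain 𝒪] [IsDiscreteValuationRing 𝒪]
    [IsAdicComplete (maximalIdeal 𝒪) 𝒪] [Finite (ResidueField 𝒪)]
    (p : ℕ) [Fact p.Prime] (hp2 : p ≠ 2) (hp𝒪 : (p : 𝒪) ∈ maximalIdeal 𝒪)
    (ρbar : ResidualGaloisRep (ResidueField 𝒪))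
    (habs : ρbar.IsAbsolutelyIrreducible)
    (hdet : (GaloisRepAdic.ofResidualGaloisRep ρbar).DetIsCyclotomic p)
    (hsplit : ∀ σ : AlgebraicClosure ℚ ≃ₐ[ℚ] AlgebraicClosure ℚ,
      ∃ α β : ResidueField 𝒪, LinearMap.charpoly (ρbar.ρ σ) = (X - C α) * (X - C β))
    (hTW : ∀ (K : Type) [Field K] [Algebra (ResidueField 𝒪) K]
      (G : Subgroup (AlgebraicClosure ℚ ≃ₐ[ℚ] AlgebraicClosure ℚ)), G.index = 2 →
      ∀ V : Submodule K (ρbar.baseChange K).V,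
        (∀ σ ∈ G, ∀ x ∈ V, (ρbar.baseChange K).ρ σ x ∈ V) → V = ⊥ ∨ V = ⊤)
    (S Smin : Finset ℕ) (hpSmin : p ∈ Smin) (hSmin : Smin ⊆ S) (hS : ∀ q ∈ S, q.Prime)
    (hmin : ∀ q : ℕ, q.Prime → q ≠ p → (q ∈ Smin ↔ ¬ ρbar.IsUnramifiedAt q)) :
    (∃ r : ℕ, ∀ n : ℕ, ∃ qv : Fin r → ℕ, Function.Injective qv ∧
      (∀ i, (qv i).Prime ∧ qv i ∉ S ∧ p ^ (n + 1) ∣ qv i - 1) ∧
      (∀ i, ∀ P : ValuationSubring (AlgebraicClosure ℚ), P.LiesOverPrime (qv i) →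
        ∀ φ : AlgebraicClosure ℚ ≃ₐ[ℚ] AlgebraicClosure ℚ, P.IsFrobeniusAt φ (qv i) →
          ∃ α β : ResidueField 𝒪, α ≠ β ∧ LinearMap.charpoly (ρbar.ρ φ) = (X - C α) * (X - C β)) ∧
      ∀ DQ : GaloisRep.DeformationRingData 𝒪 ρbar (fun _A _ _ _ ρ =>
          GaloisRep.strictOrdinaryCondition 𝒪 p (Smin ∪ Finset.univ.image qv) ρ ∧
            ∀ q ∈ Smin, q.Prime → q ≠ p → ρ.IsUnipotentOnInertiaAt q),
        ∃ γ : MvPowerSeries (Fin r) 𝒪 →ₐ[𝒪] DQ.R, Function.Surjective γ) ∧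
    (∃ r : ℕ, ∀ n : ℕ, ∃ qv : Fin r → ℕ, Function.Injective qv ∧
      (∀ i, (qv i).Prime ∧ qv i ∉ S ∧ p ^ (n + 1) ∣ qv i - 1) ∧
      (∀ i, ∀ P : ValuationSubring (AlgebraicClosure ℚ), P.LiesOverPrime (qv i) →
        ∀ φ : AlgebraicClosure ℚ ≃ₐ[ℚ] AlgebraicClosure ℚ, P.IsFrobeniusAt φ (qv i) →
          ∃ α β : ResidueField 𝒪, α ≠ β ∧ LinearMap.charpoly (ρbar.ρ φ) = (X - C α) * (X - C β)) ∧
      ∀ DQ : GaloisRep.DeformationRingData 𝒪 ρbar (fun _A _ _ _ ρ =>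
          GaloisRep.flatCondition 𝒪 p (Smin ∪ Finset.univ.image qv) ρ ∧
            ∀ q ∈ Smin, q.Prime → q ≠ p → ρ.IsUnipotentOnInertiaAt q),
        ∃ γ : MvPowerSeries (Fin r) 𝒪 →ₐ[𝒪] DQ.R, Function.Surjective γ) := by
  classical
  have hp : p.Prime := Fact.out
  haveI : CharP (ResidueField 𝒪) p := (CharP.charP_iff_prime_eq_zero hp).mpr
    ((map_natCast (residue 𝒪) p).symm.trans ((residue_eq_zero_iff _).mpr hp𝒪))
  have h2 : (2 : ResidueField 𝒪) ≠ 0 := fun h => hp2 ((Nat.prime_dvd_prime_iff_eq hp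
    Nat.prime_two).mp ((CharP.cast_eq_zero_iff (ResidueField 𝒪) p 2).mp (by exact_mod_cast h)))
  let bb := Module.finBasisOfFinrankEq (ResidueField 𝒪) ρbar.V ρbar.finrank_eq
  have hr := Fermat.Agent.CFT.TWPrimes.twHyp_matRes ρbar bb h2 habs hsplit
    fun G hG => hTW (ResidueField 𝒪) G hG
  have hfin := Fermat.Agent.CFT.TWPrimes.finiteLevel_matRes ρbar bb
  have hcyc := fun σ a =>
    Fermat.Agent.CFT.TWPrimes.det_matRes_of_detIsCyclotomic ρbar bb p hdet σ a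
  obtain ⟨m, hm⟩ := exists_primes_bound p hp2 ρbar bb hr hdet S Smin hpSmin
    (fun v hv => hS v (hSmin hv)) hmin
  refine ⟨⟨m, fun n => ?_⟩, ⟨m, fun n => ?_⟩⟩
  · obtain ⟨qv, h1, h2', h3, hV⟩ := hm n
    refine ⟨qv, h1, h2', h3, fun DQ => ?_⟩
    obtain ⟨V, _, hps, hcls, hinjV⟩ := exists_tangent_classes DQ bb
      fun A _ _ _ φ hφ _ => ⟨⟨DetIsCyclotomic.baseChange _ hφ DQ.isOfType.1.1,
        IsStrictOrdinaryAt.baseChange _ hφ DQ.isOfType.1.2.1,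
        fun q hq hqS => IsUnramifiedAt.baseChange _ hφ (DQ.isOfType.1.2.2 q hq hqS)⟩,
        fun q hq hqp hqne => IsUnipotentOnInertiaAt.baseChange _ hφ
          (DQ.isOfType.2 q hq hqp hqne)⟩
    refine hps m (hV V (fun b hb => (hcls b hb).1) (fun b hb => (hcls b hb).2.1) hinjV
      (fun b hb hne => ?_) (finrank_le_ordinary hp2 h2 hfin hcyc V
        (fun b hb => (hcls b hb).1) (fun b hb => (hcls b hb).2.1) fun b hb hne => ?_))
    · obtain ⟨ρ, B, ⟨⟨hd, -, hu⟩, hv⟩, hB⟩ := (hcls b hb).2.2 hne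
      exact ⟨ρ, B, hd, hu, hv, hB⟩
    · obtain ⟨ρ, B, ⟨⟨hd, ho, -⟩, -⟩, hB⟩ := (hcls b hb).2.2 hne
      exact ⟨ρ, B, ho, hd, hB⟩
  · obtain ⟨qv, h1, h2', h3, hV⟩ := hm n
    refine ⟨qv, h1, h2', h3, fun DQ => ?_⟩
    obtain ⟨V, _, hps, hcls, hinjV⟩ := exists_tangent_classes DQ bb
      fun A _ _ _ φ hφ hsurj => ⟨⟨DetIsCyclotomic.baseChange _ hφ DQ.isOfType.1.1,
        IsFlatAt.baseChange _ hφ hsurj DQ.isOfType.1.2.1,
        fun q hq hqS => IsUnramifiedAt.baseChange _ hφ (DQ.isOfType.1.2.2 q hq hqS)⟩,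
        fun q hq hqp hqne => IsUnipotentOnInertiaAt.baseChange _ hφ
          (DQ.isOfType.2 q hq hqp hqne)⟩
    refine hps m (hV V (fun b hb => (hcls b hb).1) (fun b hb => (hcls b hb).2.1) hinjV
      (fun b hb hne => ?_) (Fermat.Agent.CFT.GW.finrank_le_flat hp2 h2 hfin hcyc hr.split V
        (fun b hb => (hcls b hb).1) (fun b hb => (hcls b hb).2.1) fun b hb hne => ?_))
    · obtain ⟨ρ, B, ⟨⟨hd, -, hu⟩, hv⟩, hB⟩ := (hcls b hb).2.2 hne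
      exact ⟨ρ, B, hd, hu, hv, hB⟩
    · obtain ⟨ρ, B, ⟨⟨hd, hf, -⟩, -⟩, hB⟩ := (hcls b hb).2.2 hne
      exact ⟨ρ, B, hf, hd, hB⟩

end Fermat.Agent.Results.S56
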